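import Fermat.Agent.HeegnerCongruent.Neighbours
import Fermat.Agent.Root.SummaryClassNumberModFour

/-!
# The field `ℚ(j(√-p))` for `p ≡ 5 (mod 8)` and its involution

With `x = 16 / (λ λ')`, `j' = -(x - 256)³ / x²` is `j((1 + √-p) / 2)`; the automorphism `σ` of the
field taking `j` to `j'` takes `x` to `4096 / x`, so it is an involution.
-/

set_option autoImplicit false
set_option linter.style.haveILetI false

noncomputable section

open UpperHalfPlane hiding I
open FA.ThetaAGM FA.ModField FA.JInj FA.CurveRed.Haupt IntermediateField Module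
open FA.HeegnerCongruent
open FA.Singular (values disc IsRoot jfun_mem_values jfun_principal_eq isIntegral_values)

namespace FA.CongruentFive

/-- `x = 16 / (λ λ')` at `√-p`. -/
def xVal (p : ℕ) : ℝ := rootOne (modK (Real.sqrt p) ^ 2)

variable {p : ℕ} (hp : p.Prime) (h8 : p % 8 = 5)

include hp

theorem facts :
    0 < modK (Real.sqrt p) ^ 2 ∧ 0 < 1 - modK (Real.sqrt p) ^ 2 ∧ 0 < xVal p ∧
      (xVal p - 16) ^ 3 = jIm (Real.sqrt p) * xVal p := by
  have hs := sqrt_pos_of_prime hp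
  have h0 : 0 < modK (Real.sqrt p) ^ 2 := pow_pos (modK_pos hs) 2
  have h1 : 0 < 1 - modK (Real.sqrt p) ^ 2 := by nlinarith [modK_pos hs, modK_lt_one hs]
  refine ⟨h0, h1, div_pos (by norm_num) (mul_pos h0 h1), ?_⟩
  have := cubic_eq h0.ne' h1.ne' (xVal p)
  rw [show xVal p - rootOne (modK (Real.sqrt p) ^ 2) = 0 from sub_self _, zero_mul, zero_mul,
    sub_eq_zero] at this
  exact this

omit hp in
/-- An element with the minimal polynomial of a singular modulus is one of the same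
discriminant. -/
theorem mem_values_of_minpoly {D : ℤ} (hD : D < 0) {u v : ℂ} (hu : u ∈ values D)
    (h : minpoly ℚ v = minpoly ℚ u) : v ∈ values D := by
  refine FA.Singular.root_mem_values hD hu ?_
  have := minpoly.aeval ℚ v
  rwa [h, minpoly.isIntegrallyClosed_eq_field_fractions' ℚ (isIntegral_values hD hu),
    Polynomial.aeval_map_algebraMap] at this

include h8

/-- A real root of `(T - 16)³ = j T` with other invariant of discriminant `-4 p` is `x`. -/
theorem eq_xVal {r : ℝ} (h : (r - 16) ^ 3 = jIm (Real.sqrt p) * r)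
    (hj : (otherInv r : ℂ) ∈ values (-4 * (p : ℤ))) : r = xVal p := by
  have hs := sqrt_pos_of_prime hp
  obtain ⟨h0, h1, -, -⟩ := facts hp
  obtain ⟨h2, h3⟩ := outer_mem_values hp (by omega)
  have hne : -16 * (p : ℤ) ≠ -4 * (p : ℤ) := by have := hp.pos; omega
  have hD : -16 * (p : ℤ) < 0 := by have := hp.pos; omega
  have hD' : -4 * (p : ℤ) < 0 := by have := hp.pos; omega
  have := cubic_eq h0.ne' h1.ne' r
  rw [show jOfLam (modK (Real.sqrt p) ^ 2) = jIm (Real.sqrt p) from rfl, ← h, sub_self, eq_comm,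
    mul_eq_zero, mul_eq_zero, sub_eq_zero, sub_eq_zero, sub_eq_zero] at this
  rcases this with (e | e) | e
  · exact e
  · rw [e, otherInv_rootTwo h0.ne' h1.ne', ← jIm_half hs] at hj
    exact absurd (values_disjoint hD hD' h3 hj) hne
  · rw [e, otherInv_rootThree h0.ne' h1.ne', ← jIm_double hs] at hj
    exact absurd (values_disjoint hD hD' h2 hj) hne

/-- `j' = -(x - 256)³ / x²` is a singular modulus of discriminant `-4 p`. -/
theorem otherInv_mem_values : (otherInv (xVal p) : ℂ) ∈ values (-4 * (p : ℤ)) := by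
  have hs := sqrt_pos_of_prime hp
  obtain ⟨h0, h1, -, -⟩ := facts hp
  have hsq : ((Real.sqrt p : ℝ) : ℂ) ^ 2 = (p : ℂ) := by
    rw [← Complex.ofReal_pow, Real.sq_sqrt (Nat.cast_nonneg _)]; norm_num
  obtain ⟨k, hk⟩ : ∃ k, p = 8 * k + 5 := ⟨p / 8, by omega⟩
  let z : ℍ := ⟨(1 + Complex.I * (Real.sqrt p : ℂ)) / 2, by
    simp [Complex.div_ofNat_im, hp.pos]⟩
  have hz : (z : ℂ) = (1 + Complex.I * (Real.sqrt p : ℂ)) / 2 := rfl
  have hk' : (p : ℂ) = 8 * k + 5 := by rw [hk]; push_cast; ring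
  have hd : disc (2, -2, ((4 * k + 3 : ℕ) : ℤ)) = -4 * (p : ℤ) := by
    simp only [disc, hk]; push_cast; ring
  have hD : -4 * (p : ℤ) < 0 := by have := hp.pos; omega
  have hv : jfun z ∈ values (-4 * (p : ℤ)) := by
    rw [← hd]
    refine jfun_mem_values two_pos (by rw [hd]; exact hD) ?_ ?_
    · show Int.gcd ((Int.gcd 2 (-2) : ℕ) : ℤ) ((4 * k + 3 : ℕ) : ℤ) = 1
      rw [Int.gcd_natCast_natCast, show Int.gcd 2 (-2) = 2 from rfl]
      exact Nat.coprime_two_left.2 ⟨2 * k + 1, by ring⟩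
    · simp only [IsRoot, hz]
      push_cast
      linear_combination (1 / 2 : ℂ) * (Complex.I ^ 2 * hsq + (p : ℂ) * Complex.I_sq) -
        (1 / 2 : ℂ) * hk'
  have e : jfun (scaleH 2 z) = (jIm (Real.sqrt p) : ℂ) := by
    rw [← jfun_imPt_eq hs]
    refine jfun_principal_eq (B := -2) (C := 1 + (p : ℤ)) (B' := 0) (C' := (p : ℤ)) (by ring) ?_ ?_
    · simp only [IsRoot, coe_scaleH, hz]
      push_cast
      linear_combination Complex.I ^ 2 * hsq + (p : ℂ) * Complex.I_sq
    · simp only [IsRoot, coe_imPt]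
      push_cast
      linear_combination Complex.I ^ 2 * hsq + (p : ℂ) * Complex.I_sq
  obtain ⟨h2, h3⟩ := outer_mem_values hp (by omega)
  have hne : -16 * (p : ℤ) ≠ -4 * (p : ℤ) := by have := hp.pos; omega
  have hD16 : -16 * (p : ℤ) < 0 := by have := hp.pos; omega
  have hj := jfun_eq_otherInvC z
  rcases root_cases hs (RingEquiv.refl ℂ) (r := -haupt2Fun z)
    (by rw [RingEquiv.refl_apply, ← e]; exact cube_neg_haupt z) with h | h | h <;>
    rw [h, RingEquiv.refl_apply, otherInvC_ofReal] at hj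
  · exact hj ▸ hv
  · rw [hj, otherInv_rootTwo h0.ne' h1.ne', ← jIm_half hs] at hv
    exact absurd (values_disjoint hD16 hD h3 hv) hne
  · rw [hj, otherInv_rootThree h0.ne' h1.ne', ← jIm_double hs] at hv
    exact absurd (values_disjoint hD16 hD h2 hv) hne

/-- `ℚ(j(√-p))` has degree twice an odd number and contains `√p`. -/
theorem field_facts :
    ∃ _ : FiniteDimensional ℚ ℚ⟮jIm (Real.sqrt p)⟯,
      finrank ℚ ℚ⟮jIm (Real.sqrt p)⟯ % 4 = 2 ∧ Real.sqrt p ∈ ℚ⟮jIm (Real.sqrt p)⟯ := by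
  have hs := sqrt_pos_of_prime hp
  haveI : NeZero p := ⟨hp.ne_zero⟩
  obtain ⟨hi, hdeg⟩ := natDegree_jIm hs (a := 1) (c := p) (Nat.coprime_one_left p)
    one_pos hp.pos (by rw [Real.sq_sqrt (Nat.cast_nonneg _)]; simp)
  refine ⟨adjoin.finiteDimensional hi, ?_, ?_⟩
  · rw [adjoin.finrank hi, hdeg, one_mul, FA.RingClassJ.ncard_red_eq]
    exact (FA.Summary.classNumber_prime_mod_four p hp).2.1 h8
  · have ht : 0 < ((1 : ℕ) : ℝ) * Real.sqrt p := mul_pos (by norm_num) hs
    have hτ := mul_imPt_sq (p := p) (r := 1) (n := p) (by ring) ht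
    have h := (FA.Summary.genusField_sqrt_mem p hτ (D := p) (Or.inl ⟨p, hp, by omega,
      dvd_refl p, by rw [(show Even (p / 2) from Nat.even_iff.2 (by omega)).neg_one_pow, one_mul]⟩)
      (x := (Real.sqrt p : ℂ)) (by
        rw [← Complex.ofReal_pow, Real.sq_sqrt (Nat.cast_nonneg _)]; norm_num)).2
        (Int.natCast_pos.2 hp.pos)
    change _ ∈ IntermediateField.adjoin ℚ {jfun (imPt _ ht)} at h
    rw [jfun_imPt_eq, ofReal_mem_adjoin_iff] at h
    simpa using h

/-- **`x` lies in `ℚ(j(√-p))`.** -/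
theorem xVal_mem : xVal p ∈ ℚ⟮jIm (Real.sqrt p)⟯ := by
  have hs := sqrt_pos_of_prime hp
  obtain ⟨h0, h1, hx0, hcube⟩ := facts hp
  haveI : NeZero p := ⟨hp.ne_zero⟩
  set F := ℚ⟮jIm (Real.sqrt p)⟯ with hF
  set J := jIm (Real.sqrt p) with hJ
  have hJF : J ∈ F := mem_adjoin_simple_self ℚ _
  have hj'F : otherInv (xVal p) ∈ F := by
    have h1' : 0 < ((1 : ℕ) : ℝ) * Real.sqrt p := mul_pos (by norm_num) hs
    have h := FA.RealModuli.mem_adjoin_of_real p (mul_imPt_sq (p := p) (r := 1) (n := p)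
      (by ring) h1') (otherInv_mem_values hp h8) (Complex.ofReal_im _)
    rw [jfun_imPt_eq, ofReal_mem_adjoin_iff] at h
    simpa [hF, hJ] using h
  set P : Polynomial F := (Polynomial.X - 16) ^ 3 - Polynomial.C ⟨J, hJF⟩ * Polynomial.X with hP
  set Q : Polynomial F :=
    (Polynomial.X - 256) ^ 3 + Polynomial.C ⟨_, hj'F⟩ * Polynomial.X ^ 2 with hQ
  have hPe : ∀ T : ℝ, Polynomial.aeval T P = (T - 16) ^ 3 - J * T := fun T => by
    simp only [hP, map_sub, map_pow, map_mul, Polynomial.aeval_X, Polynomial.aeval_C, map_ofNat]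
    rfl
  have hQe : ∀ T : ℝ,
      Polynomial.aeval T Q = (T - 256) ^ 3 + otherInv (xVal p) * T ^ 2 := fun T => by
    simp only [hQ, map_add, map_sub, map_pow, map_mul, Polynomial.aeval_X, Polynomial.aeval_C,
      map_ofNat]
    rfl
  have hxP : Polynomial.aeval (xVal p) P = 0 := by rw [hPe, hcube, sub_self]
  have hxQ : Polynomial.aeval (xVal p) Q = 0 := by
    rw [hQe, otherInv, div_mul_cancel₀ _ (pow_ne_zero 2 hx0.ne')]
    ring
  have hPm : P.Monic := by rw [hP]; monicity!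
  have hi : IsIntegral F (xVal p) := ⟨P, hPm, hxP⟩
  set m := minpoly F (xVal p) with hm
  have hsplit : (m.map (algebraMap F ℝ)).Splits := by
    have e : P.map (algebraMap F ℝ) =
        (Polynomial.X - Polynomial.C (rootOne (modK (Real.sqrt p) ^ 2))) *
        (Polynomial.X - Polynomial.C (rootTwo (modK (Real.sqrt p) ^ 2))) *
        (Polynomial.X - Polynomial.C (rootThree (modK (Real.sqrt p) ^ 2))) := by
      refine Polynomial.funext fun T => ?_
      rw [Polynomial.eval_map, ← Polynomial.aeval_def, hPe]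
      simp only [Polynomial.eval_mul, Polynomial.eval_sub, Polynomial.eval_X, Polynomial.eval_C]
      exact cubic_eq h0.ne' h1.ne' T
    refine Polynomial.Splits.of_dvd ?_ ?_ (Polynomial.map_dvd _ (minpoly.dvd F _ hxP))
    · rw [e]
      exact ((Polynomial.Splits.X_sub_C _).mul (Polynomial.Splits.X_sub_C _)).mul
        (Polynomial.Splits.X_sub_C _)
    · exact Polynomial.map_ne_zero hPm.ne_zero
  have hroots : ∀ r ∈ (m.map (algebraMap F ℝ)).roots, r = xVal p := fun r hr => by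
    rw [Polynomial.mem_roots', Polynomial.IsRoot, Polynomial.eval_map, ← Polynomial.aeval_def] at hr
    have h1' : Polynomial.aeval r P = 0 :=
      Polynomial.aeval_eq_zero_of_dvd_aeval_eq_zero (minpoly.dvd F _ hxP) hr.2
    have h2' : Polynomial.aeval r Q = 0 :=
      Polynomial.aeval_eq_zero_of_dvd_aeval_eq_zero (minpoly.dvd F _ hxQ) hr.2
    rw [hPe, sub_eq_zero] at h1'
    rw [hQe] at h2'
    have hr0 : r ≠ 0 := fun e => by rw [e] at h2'; norm_num at h2'
    refine eq_xVal hp h8 h1' ?_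
    have e : otherInv r = otherInv (xVal p) := by
      rw [otherInv, div_eq_iff (pow_ne_zero 2 hr0)]
      linear_combination -h2'
    rw [e]
    exact otherInv_mem_values hp h8
  have hsep : (m.map (algebraMap F ℝ)).roots.Nodup :=
    Polynomial.nodup_roots ((minpoly.irreducible hi).separable.map)
  have hcard : m.natDegree ≤ 1 := by
    rw [← Polynomial.natDegree_map (f := algebraMap F ℝ), hsplit.natDegree_eq_card_roots]
    have h := hsep
    rw [Multiset.eq_replicate_of_mem hroots, Multiset.nodup_iff_count_le_one] at h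
    simpa using h (xVal p)
  have hdeg : m.natDegree = 1 := le_antisymm hcard (minpoly.natDegree_pos hi)
  obtain ⟨y, hy⟩ := minpoly.natDegree_eq_one_iff.1 hdeg
  exact hy ▸ y.2

/-- **The involution.** -/
theorem exists_involution :
    ∃ (hx : xVal p ∈ ℚ⟮jIm (Real.sqrt p)⟯)
      (σ : ℚ⟮jIm (Real.sqrt p)⟯ ≃ₐ[ℚ] ℚ⟮jIm (Real.sqrt p)⟯),
      ((σ ⟨_, hx⟩ : ℚ⟮jIm (Real.sqrt p)⟯) : ℝ) = 4096 / xVal p ∧ σ * σ = 1 := by
  have hs := sqrt_pos_of_prime hp
  obtain ⟨-, -, hx0, hcube⟩ := facts hp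
  obtain ⟨_, -, -⟩ := field_facts hp h8
  have hx := xVal_mem hp h8
  set J := jIm (Real.sqrt p) with hJ
  have hD : -4 * (p : ℤ) < 0 := by have := hp.pos; omega
  have hjv := otherInv_mem_values hp h8
  have hJv := principal_mem_values hp
  set X : ℚ⟮J⟯ := ⟨xVal p, hx⟩ with hX
  set j' : ℚ⟮J⟯ := ⟨otherInv (xVal p), otherInv_mem hx⟩ with hj'
  set g : ℚ⟮J⟯ := AdjoinSimple.gen ℚ J with hg
  have hi : IsIntegral ℚ J :=
    (isIntegral_algHom_iff (Complex.ofRealAm.restrictScalars ℚ) Complex.ofReal_injective).1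
      (isIntegral_values hD hJv).tower_top
  have hroot : Polynomial.aeval j' (minpoly ℚ J) = 0 := by
    refine Subtype.val_injective ?_
    rw [ZeroMemClass.coe_zero]
    refine (Polynomial.aeval_algHom_apply (ℚ⟮J⟯).val _ _).symm.trans ?_
    refine Complex.ofReal_injective ?_
    rw [Complex.ofReal_zero]
    refine (Polynomial.aeval_algHom_apply (Complex.ofRealAm.restrictScalars ℚ) _ _).symm.trans ?_
    rw [← minpoly_ofReal, minpoly.isIntegrallyClosed_eq_field_fractions' ℚ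
      (isIntegral_values hD hJv), Polynomial.aeval_map_algebraMap,
      FA.Singular.minpoly_eq_of_mem hD hJv hjv]
    exact minpoly.aeval ℤ _
  let φ : ℚ⟮J⟯ →ₐ[ℚ] ℚ⟮J⟯ := (adjoin.powerBasis hi).lift j' (by
    rw [adjoin.powerBasis_gen, minpoly_gen]; exact hroot)
  have hφg : φ g = j' := by
    have := (adjoin.powerBasis hi).lift_gen j'
      (by rw [adjoin.powerBasis_gen, minpoly_gen]; exact hroot)
    exact this
  let σ : ℚ⟮J⟯ ≃ₐ[ℚ] ℚ⟮J⟯ := AlgEquiv.ofBijective φ φ.bijective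
  have hσg : σ g = j' := hφg
  have hXne : X ≠ 0 := fun e => hx0.ne' (congrArg Subtype.val e)
  set r : ℚ⟮J⟯ := σ.symm (4096 / X) with hr
  have hσr : σ r = 4096 / X := σ.apply_symm_apply _
  have hcubeX : (X - 16) ^ 3 = g * X := Subtype.ext (by push_cast; exact hcube)
  have hj'e : j' = -(X - 256) ^ 3 / X ^ 2 := Subtype.ext (by push_cast; rfl)
  have h1 : (r - 16) ^ 3 = g * r := σ.injective (by
    rw [map_pow, map_sub, map_mul, map_ofNat, hσg, hσr, hj'e]
    field_simp
    ring)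
  have h2 : σ (-(r - 256) ^ 3 / r ^ 2) = g := by
    rw [map_div₀, map_neg, map_pow, map_pow, map_sub, map_ofNat, hσr,
      show g = (X - 16) ^ 3 / X by rw [hcubeX, mul_div_cancel_right₀ _ hXne]]
    field_simp
    ring
  have hrx : (r : ℝ) = xVal p := by
    have h1' := congrArg Subtype.val h1
    push_cast [hg, AdjoinSimple.coe_gen] at h1'
    refine eq_xVal hp h8 h1' ?_
    refine mem_values_of_minpoly hD hJv ?_
    rw [show otherInv (r : ℝ) = ((-(r - 256) ^ 3 / r ^ 2 : ℚ⟮J⟯) : ℝ) by push_cast; rfl,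
      minpoly_ofReal, minpoly_ofReal]
    show minpoly ℚ ((ℚ⟮J⟯).val (-(r - 256) ^ 3 / r ^ 2)) = minpoly ℚ J
    refine (minpoly.algHom_eq (ℚ⟮J⟯).val Subtype.val_injective _).trans ?_
    refine ((minpoly.algEquiv_eq σ _).symm.trans (congrArg (minpoly ℚ) h2)).trans ?_
    exact minpoly_gen ℚ J
  have hσX : σ X = 4096 / X := by rw [← hσr, show r = X from Subtype.ext hrx]
  refine ⟨hx, σ, by rw [← hX, hσX]; push_cast; rfl, ?_⟩
  have hσj : σ j' = g := by
    rw [hj'e, map_div₀, map_neg, map_pow, map_pow, map_sub, map_ofNat, hσX,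
      show g = (X - 16) ^ 3 / X by rw [hcubeX, mul_div_cancel_right₀ _ hXne]]
    field_simp
    ring
  refine AlgEquiv.ext fun z => ?_
  have e : ((σ * σ : ℚ⟮J⟯ ≃ₐ[ℚ] ℚ⟮J⟯) : ℚ⟮J⟯ →ₐ[ℚ] ℚ⟮J⟯) = AlgHom.id ℚ _ :=
    (adjoin.powerBasis hi).algHom_ext (by
      rw [adjoin.powerBasis_gen]
      show σ (σ g) = g
      rw [hσg, hσj])
  exact DFunLike.congr_fun e z

end FA.CongruentFive

end
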