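import Fermat.Agent.HeegnerCongruent.Descent
import Fermat.Agent.HeegnerCongruent.Quad

/-!
# The spaces `p y² = x⁴ + 4` and `p y² = x⁴ + 1`

Their rational points give right triangles of area `p`, resp. `2 p`.
-/

set_option autoImplicit false
set_option linter.style.haveILetI false

noncomputable section

open Polynomial Module IntermediateField
open FA.HeegnerCongruent

namespace FA.CongruentFive

/-- A point of odd degree on `p y² = x⁴ + a` gives a rational one. -/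
theorem exists_rat_point_quartic {p : ℕ} (hp : p.Prime) {a : ℕ} {E : IntermediateField ℚ ℝ}
    [FiniteDimensional ℚ E] (hodd : Odd (finrank ℚ E)) {q r : ℝ} (hq : q ∈ E) (hr : r ∈ E)
    (he : (p : ℝ) * r ^ 2 = q ^ 4 + a) :
    ∃ x y : ℚ, (p : ℚ) * y ^ 2 = x ^ 4 + a := by
  set f : ℚ[X] := X ^ 4 + C (a : ℚ) with hf
  have f4 : f.natDegree = 4 := by rw [hf, natDegree_add_C, natDegree_X_pow]
  have fl : f.leadingCoeff = ((1 ^ 2 : ℕ) : ℚ) := by
    rw [hf, (monic_X_pow_add_C (a : ℚ) (by norm_num : (4 : ℕ) ≠ 0)).leadingCoeff]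
    simp
  have hp0 : (p : ℝ) ≠ 0 := Nat.cast_ne_zero.2 hp.ne_zero
  have hη : r ∈ ℚ⟮q⟯ := by
    refine mem_of_sq_mem hodd (adjoin_simple_le_iff.2 hq) hr ?_
    rw [show r ^ 2 = (q ^ 4 + a) / p by rw [← he]; field_simp]
    exact div_mem (add_mem (pow_mem (mem_adjoin_simple_self ℚ q) 4) (_root_.natCast_mem _ a))
      (_root_.natCast_mem _ p)
  have hi : IsIntegral ℚ q :=
    (isIntegral_algHom_iff E.val E.val.injective (x := (⟨q, hq⟩ : E))).2
      (Algebra.IsIntegral.isIntegral _)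
  obtain ⟨x, y, hxy⟩ := exists_rat_point f4 (c := (p : ℚ)) (Nat.cast_ne_zero.2 hp.ne_zero)
    (by rw [fl]; exact not_isSquare_div_prime hp 1 one_ne_zero) hi
    (odd_natDegree_of_mem hodd hq) hη (by simp [hf, he])
  exact ⟨x, y, by simpa [hf] using hxy⟩

/-- **`p y² = x⁴ + 4` gives that `p` is congruent.** -/
theorem congruent_of_add_four {p : ℕ} (hp : p.Prime) {x y : ℚ}
    (h : (p : ℚ) * y ^ 2 = x ^ 4 + 4) :
    ∃ a b c : ℚ, 0 < a ∧ 0 < b ∧ 0 < c ∧ a ^ 2 + b ^ 2 = c ^ 2 ∧ a * b / 2 = (p : ℚ) := by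
  have hp0 : (0 : ℚ) < p := Nat.cast_pos.2 hp.pos
  have hx : x ≠ 0 := fun e => by
    have hs : IsSquare ((p : ℕ) : ℚ) := ⟨p * y / 2, by
      subst e
      linear_combination (-(p : ℚ) / 4) * h⟩
    exact (Nat.prime_iff.1 hp).not_isSquare (Rat.isSquare_natCast_iff.1 hs)
  have hy : y ≠ 0 := fun e => by subst e; nlinarith [sq_nonneg (x ^ 2)]
  have hn : x ^ 4 - 4 ≠ 0 := fun e => by
    rcases mul_eq_zero.1 (show (x ^ 2 - 2) * (x ^ 2 + 2) = 0 by linear_combination e) with e' | e'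
    · obtain ⟨r, hr⟩ := Rat.isSquare_natCast_iff.1
        (show IsSquare ((2 : ℕ) : ℚ) from ⟨x, by push_cast; linear_combination -e'⟩)
      have : r < 2 := by nlinarith
      interval_cases r <;> omega
    · nlinarith [sq_nonneg x]
  set s := |x * y| with hs
  set n := |x ^ 4 - 4| with hn'
  have hs0 : 0 < s := abs_pos.2 (mul_ne_zero hx hy)
  have hn0 : 0 < n := abs_pos.2 hn
  have hs2 : s ^ 2 = (x * y) ^ 2 := sq_abs _
  have hn2 : n ^ 2 = (x ^ 4 - 4) ^ 2 := sq_abs _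
  refine ⟨n / (2 * s), 4 * p * s / n, ((x ^ 4 + 4) ^ 2 + 16 * x ^ 4) / (2 * s * n),
    by positivity, by positivity, by positivity, ?_, by field_simp; ring⟩
  field_simp
  rw [show n ^ 4 = (n ^ 2) ^ 2 by ring, show s ^ 4 = (s ^ 2) ^ 2 by ring, hs2, hn2]
  linear_combination (64 * x ^ 4 * ((p : ℚ) * y ^ 2 + (x ^ 4 + 4))) * h

/-- **`p y² = x⁴ + 1` gives that `2 p` is congruent.** -/
theorem congruent_of_add_one {p : ℕ} (hp : p.Prime) (hp2 : p ≠ 2) {x y : ℚ}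
    (h : (p : ℚ) * y ^ 2 = x ^ 4 + 1) :
    ∃ a b c : ℚ, 0 < a ∧ 0 < b ∧ 0 < c ∧ a ^ 2 + b ^ 2 = c ^ 2 ∧
      a * b / 2 = ((2 * p : ℕ) : ℚ) := by
  have hp0 : (0 : ℚ) < p := Nat.cast_pos.2 hp.pos
  have hx : x ≠ 0 := fun e => by
    have hs : IsSquare ((p : ℕ) : ℚ) := ⟨p * y, by
      subst e
      linear_combination (-(p : ℚ)) * h⟩
    exact (Nat.prime_iff.1 hp).not_isSquare (Rat.isSquare_natCast_iff.1 hs)
  have hy : y ≠ 0 := fun e => by subst e; nlinarith [sq_nonneg (x ^ 2)]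
  have hn : x ^ 4 - 1 ≠ 0 := fun e => by
    have hs : IsSquare ((2 * p : ℕ) : ℚ) := ⟨p * y, by
      push_cast
      linear_combination (-(p : ℚ)) * h - (p : ℚ) * e⟩
    obtain ⟨m, hm⟩ := Rat.isSquare_natCast_iff.1 hs
    obtain ⟨j, rfl⟩ : 2 ∣ m := (Nat.prime_two.dvd_mul.1 ⟨p, hm.symm⟩).elim id id
    exact hp2 ((Nat.prime_dvd_prime_iff_eq Nat.prime_two hp).1 ⟨j * j, by linarith⟩).symm
  set s := |x * y| with hs
  set n := |x ^ 4 - 1| with hn'
  have hs0 : 0 < s := abs_pos.2 (mul_ne_zero hx hy)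
  have hn0 : 0 < n := abs_pos.2 hn
  have hs2 : s ^ 2 = (x * y) ^ 2 := sq_abs _
  have hn2 : n ^ 2 = (x ^ 4 - 1) ^ 2 := sq_abs _
  refine ⟨n / s, 4 * p * s / n, ((x ^ 4 + 1) ^ 2 + 4 * x ^ 4) / (s * n),
    by positivity, by positivity, by positivity, ?_, by push_cast; field_simp; ring⟩
  field_simp
  rw [show n ^ 4 = (n ^ 2) ^ 2 by ring, show s ^ 4 = (s ^ 2) ^ 2 by ring, hs2, hn2]
  linear_combination (16 * x ^ 4 * ((p : ℚ) * y ^ 2 + (x ^ 4 + 1))) * h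

end FA.CongruentFive

end
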