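import Fermat.Agent.CongruentFive.Base
import Fermat.Agent.Supersingular.CMReduction
import Fermat.Agent.Root.SummarySupersingularCount
import Mathlib.RingTheory.Norm.Transitivity

/-!
# `p` does not divide the norm of `j(√-p) - 1728`

For `p ≡ 5 (mod 8)`: the singular moduli of discriminant `-4 p` are supersingular modulo `p`,
`1728` is not.
-/

set_option autoImplicit false
set_option linter.style.haveILetI false

noncomputable section

open Polynomial Module IntermediateField UpperHalfPlane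
open FA.HeegnerCongruent
open FA.Singular (values isIntegral_values)

namespace FA.CongruentFive

variable {p : ℕ} (hp : p.Prime) (h8 : p % 8 = 5)

include hp

/-- `-4 p` is no square in `ℚ_[p]`. -/
theorem not_isSquare_padic (hp2 : p ≠ 2) [Fact p.Prime] :
    ¬ IsSquare (((-4 * (p : ℤ) : ℤ)) : ℚ_[p]) := by
  rintro ⟨z, hz⟩
  have hc : padicValInt p (-4 * (p : ℤ)) = 1 := by
    rw [padicValInt, Int.natAbs_mul, Int.natAbs_natCast]
    haveI : Fact (Nat.Prime 2) := ⟨Nat.prime_two⟩
    rw [show (-4 : ℤ).natAbs = 2 ^ 2 from rfl, padicValNat.mul (by norm_num) hp.ne_zero,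
      padicValNat_prime_prime_pow 2 hp2, padicValNat.self hp.one_lt]
  have h := congrArg Padic.valuation hz
  have hz0 : z ≠ 0 := fun e => by
    rw [e, mul_zero, Int.cast_eq_zero] at hz
    have := hp.pos
    omega
  rw [Padic.valuation_intCast, hc, Padic.valuation_mul hz0 hz0] at h
  omega

include h8

/-- `1728` is no root of the class polynomial modulo `p`. -/
theorem not_dvd_eval :
    ¬ (p : ℤ) ∣ (minpoly ℤ ((jIm (Real.sqrt p) : ℝ) : ℂ)).eval 1728 := fun hdvd => by
  classical
  haveI := Fact.mk hp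
  set J : ℂ := ((jIm (Real.sqrt p) : ℝ) : ℂ) with hJ
  have hv : J ∈ values (-4 * (p : ℤ)) := principal_mem_values hp
  have hD : -4 * (p : ℤ) < 0 := by have := hp.pos; omega
  have h5 : 5 ≤ p := by omega
  let k := AlgebraicClosure (ZMod p)
  haveI : CharP k p := charP_of_injective_algebraMap (algebraMap (ZMod p) k).injective p
  have hW : (WeierstrassCurve.ofJ (1728 : k)).j = 1728 := WeierstrassCurve.ofJ_j _
  have hr : ((minpoly ℤ J).map (Int.castRingHom k)).IsRoot (WeierstrassCurve.ofJ (1728 : k)).j := by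
    rw [hW, IsRoot, eval_map, show (1728 : k) = Int.castRingHom k 1728 by simp, eval₂_at_apply,
      eq_intCast, CharP.intCast_eq_zero_iff k p]
    exact hdvd
  have hss : ∀ P : (WeierstrassCurve.ofJ (1728 : k)).toAffine.Point, p • P = 0 → P = 0 :=
    fun P hP => FA.CMReduction.no_pTorsion h5 (not_isSquare_padic hp (by omega))
      (minpoly.monic (isIntegral_values hD hv))
      (fun z hz => by
        obtain ⟨⟨a, b, c⟩, ⟨hd, hg, ha, -⟩, τ, hτ, hj⟩ :=
          FA.Singular.root_mem_values hD hv hz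
        exact ⟨a, b, c, τ, ha, hd, hg, hτ, hj⟩) _ hr P hP
  have := (FA.Summary.supersingular_special_invariants k p h5).2.1 ⟨_, inferInstance, hW, hss⟩
  omega

/-- The norm of `j(√-p) - 1728` is prime to `p`. -/
theorem padicValRat_norm_eq_zero :
    padicValRat p (Algebra.norm ℚ
      (AdjoinSimple.gen ℚ (jIm (Real.sqrt p)) - algebraMap ℚ _ 1728)) = 0 ∧
    Algebra.norm ℚ (AdjoinSimple.gen ℚ (jIm (Real.sqrt p)) - algebraMap ℚ _ 1728) ≠ 0 := by
  have hs := sqrt_pos_of_prime hp
  set J := jIm (Real.sqrt p) with hJ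
  have hD : -4 * (p : ℤ) < 0 := by have := hp.pos; omega
  have hv : (J : ℂ) ∈ values (-4 * (p : ℤ)) := principal_mem_values hp
  have hZ := isIntegral_values hD hv
  set H := minpoly ℤ (J : ℂ) with hH
  have hi : IsIntegral ℚ J :=
    (isIntegral_algHom_iff (Complex.ofRealAm.restrictScalars ℚ) Complex.ofReal_injective).1
      hZ.tower_top
  haveI : FiniteDimensional ℚ ℚ⟮J⟯ := adjoin.finiteDimensional hi
  set g : ℚ⟮J⟯ := AdjoinSimple.gen ℚ J with hg
  set y : ℚ⟮J⟯ := g - algebraMap ℚ _ 1728 with hy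
  have hmg : minpoly ℚ g = minpoly ℚ J := minpoly_gen ℚ J
  have hm : minpoly ℚ y = (H.map (algebraMap ℤ ℚ)).comp (X + C 1728) := by
    rw [hy, minpoly.sub_algebraMap, hmg, ← minpoly_ofReal, hH,
      minpoly.isIntegrallyClosed_eq_field_fractions' ℚ hZ]
  have hmon : (H.map (algebraMap ℤ ℚ)).Monic := (minpoly.monic hZ).map _
  have hdeg : (minpoly ℚ y).natDegree = finrank ℚ ℚ⟮J⟯ := by
    rw [hm, natDegree_comp, natDegree_X_add_C, mul_one, adjoin.finrank hi, ← minpoly_ofReal,
      hH, minpoly.isIntegrallyClosed_eq_field_fractions' ℚ hZ]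
  have hiy : IsIntegral ℚ y := Algebra.IsIntegral.isIntegral y
  have hfr : finrank ℚ⟮y⟯ ℚ⟮J⟯ = 1 := by
    have h := Module.finrank_mul_finrank ℚ ℚ⟮y⟯ ℚ⟮J⟯
    rw [adjoin.finrank hiy, hdeg] at h
    exact Nat.eq_of_mul_eq_mul_left Module.finrank_pos (by rw [mul_one]; exact h)
  have hN : Algebra.norm ℚ y =
      (-1) ^ (minpoly ℚ y).natDegree * ((H.eval 1728 : ℤ) : ℚ) := by
    haveI : FiniteDimensional ℚ ℚ⟮y⟯ := adjoin.finiteDimensional hiy
    have h := Algebra.PowerBasis.norm_gen_eq_coeff_zero_minpoly (adjoin.powerBasis hiy)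
    rw [adjoin.powerBasis_gen, adjoin.powerBasis_dim, minpoly_gen] at h
    rw [Algebra.norm_eq_norm_adjoin ℚ y, hfr, pow_one, h]
    congr 1
    rw [hm, coeff_zero_eq_eval_zero, eval_comp]
    simp only [eval_add, eval_X, eval_C, zero_add]
    rw [eval_map_algebraMap, show (1728 : ℚ) = algebraMap ℤ ℚ 1728 by simp,
      aeval_algebraMap_apply_eq_algebraMap_eval]
    rfl
  have hne : H.eval 1728 ≠ 0 := fun e => not_dvd_eval hp h8 (by rw [← hH, e]; exact dvd_zero _)
  have h1 : ((H.eval 1728 : ℤ) : ℚ) ≠ 0 := Int.cast_ne_zero.2 hne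
  haveI := Fact.mk hp
  rw [hN]
  refine ⟨?_, mul_ne_zero (pow_ne_zero _ (by norm_num)) h1⟩
  rw [padicValRat.mul (pow_ne_zero _ (by norm_num)) h1, padicValRat.pow, padicValRat.neg,
    padicValRat.one, mul_zero, zero_add, padicValRat.of_int,
    padicValInt.eq_zero_of_not_dvd (not_dvd_eval hp h8)]
  rfl

end FA.CongruentFive

end
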