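import Fermat.Agent.CongruentFive.Quartic
import Fermat.Agent.CongruentFive.Descent
import Fermat.Agent.CongruentFive.Reduction
import Fermat.Agent.CongruentNumber.Double

/-!
# Primes `p ≡ 5 (mod 8)` are congruent numbers

In `F = ℚ(j(√-p))` with its involution, `1 / u - u = e q²` and `u + 1 / u = r √p` for `u = 2 k k'`,
so `(q, r)` is a point of odd degree on `p r² = e² q⁴ + 4`; `e = 2` would make `2 p` congruent.
-/

set_option autoImplicit false
set_option linter.style.haveILetI false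

noncomputable section

open Module IntermediateField
open FA.HeegnerCongruent
open FA.Singular (isIntegral_values)

namespace FA.CongruentFive

variable {p : ℕ} (hp : p.Prime) (h8 : p % 8 = 5)

include hp h8

theorem sixtyFour_lt_xVal : 64 < xVal p := by
  have hs := sqrt_pos_of_prime hp
  obtain ⟨h0, h1, -, hcube⟩ := facts hp
  set l := modK (Real.sqrt p) ^ 2 with hl
  have hne : l ≠ 1 / 2 := fun e => by
    have hx64 : xVal p = 64 := by
      rw [show xVal p = 16 / (l * (1 - l)) from rfl, e]; norm_num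
    rw [hx64] at hcube
    refine (padicValRat_norm_eq_zero hp h8).2 ?_
    have hg : AdjoinSimple.gen ℚ (jIm (Real.sqrt p)) -
        algebraMap ℚ ℚ⟮jIm (Real.sqrt p)⟯ 1728 = 0 := by
      refine Subtype.ext ?_
      push_cast
      rw [AdjoinSimple.coe_gen, show jIm (Real.sqrt p) = 1728 by linarith]
      norm_num [coe_ofNat_subfield]
    obtain ⟨_, -, -⟩ := field_facts hp h8
    rw [hg, Algebra.norm_zero]
  rw [show xVal p = 16 / (l * (1 - l)) from rfl, lt_div_iff₀ (mul_pos h0 h1)]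
  have : 0 < (1 - 2 * l) ^ 2 := pow_two_pos_of_ne_zero fun e => hne (by linarith)
  nlinarith

/-- The setting at `√-p`. -/
theorem exists_setting :
    ∃ S : Setting p ℚ⟮jIm (Real.sqrt p)⟯, (S.ex : ℝ) = xVal p := by
  obtain ⟨fd, h4, htF⟩ := field_facts hp h8
  obtain ⟨hx, σ, hσx, hσ2⟩ := exists_involution hp h8
  obtain ⟨hnv, hnn⟩ := padicValRat_norm_eq_zero hp h8
  obtain ⟨-, -, hx0, hcube⟩ := facts hp
  have hD : -4 * (p : ℤ) < 0 := by have := hp.pos; omega
  have hgZ : IsIntegral ℤ (AdjoinSimple.gen ℚ (jIm (Real.sqrt p))) :=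
    (isIntegral_algHom_iff
      ((Complex.ofRealAm.restrictScalars ℚ).comp (ℚ⟮jIm (Real.sqrt p)⟯).val |>.restrictScalars ℤ)
      (Complex.ofReal_injective.comp Subtype.val_injective)).1
      (isIntegral_values hD (principal_mem_values hp))
  have hmul : (AdjoinSimple.gen ℚ (jIm (Real.sqrt p)) -
      algebraMap ℚ ℚ⟮jIm (Real.sqrt p)⟯ 1728) * ⟨xVal p, hx⟩ =
      ((⟨xVal p, hx⟩ : ℚ⟮jIm (Real.sqrt p)⟯) + 8) ^ 2 * (⟨xVal p, hx⟩ - 64) := by
    refine Subtype.ext ?_
    push_cast [coe_ofNat_subfield]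
    rw [AdjoinSimple.coe_gen]
    simp only [map_ofNat, coe_ofNat_subfield]
    linear_combination -hcube
  have hint : IsIntegral ℤ (⟨xVal p, hx⟩ : ℚ⟮jIm (Real.sqrt p)⟯) := by
    set g := AdjoinSimple.gen ℚ (jIm (Real.sqrt p)) with hg
    set R := integralClosure ℤ ℚ⟮jIm (Real.sqrt p)⟯ with hR
    refine isIntegral_trans (R := ℤ) (A := R) _ ?_
    refine ⟨(Polynomial.X - 16) ^ 3 - Polynomial.C ⟨g, hgZ⟩ * Polynomial.X, by monicity!, ?_⟩
    rw [← Polynomial.aeval_def]
    simp only [map_sub, map_pow, map_mul, Polynomial.aeval_X, Polynomial.aeval_C, map_ofNat]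
    refine Subtype.ext ?_
    push_cast [coe_ofNat_subfield]
    show (xVal p - 16) ^ 3 - jIm (Real.sqrt p) * xVal p = 0
    rw [hcube, sub_self]
  exact ⟨
    { prime := hp
      five := h8
      fd := fd
      degree := h4
      inv := σ
      inv_sq := hσ2
      root := ⟨_, htF⟩
      root_sq := Subtype.ext (by push_cast; rw [Real.sq_sqrt (Nat.cast_nonneg _)])
      ex := ⟨_, hx⟩
      ex_gt := sixtyFour_lt_xVal hp h8
      inv_ex := Subtype.ext (by rw [hσx]; push_cast [coe_ofNat_subfield]; rfl)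
      integral := hint
      jdiff := _
      jdiff_mul := hmul
      jdiff_ne := hnn
      jdiff_val := hnv }, rfl⟩

/-- **Primes `p ≡ 5 (mod 8)` are congruent.** -/
theorem prime_congruent :
    ∃ a b c : ℚ, 0 < a ∧ 0 < b ∧ 0 < c ∧ a ^ 2 + b ^ 2 = c ^ 2 ∧ a * b / 2 = (p : ℚ) := by
  have hs := sqrt_pos_of_prime hp
  obtain ⟨h0, h1, hx0, -⟩ := facts hp
  have hx64 := sixtyFour_lt_xVal hp h8
  set t := Real.sqrt p with ht
  set F := ℚ⟮jIm t⟯ with hF
  obtain ⟨S, hSx⟩ : ∃ S : Setting p F, (S.ex : ℝ) = xVal p := exists_setting hp h8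
  set l := modK t ^ 2 with hl
  have hxl : xVal p = 16 / (l * (1 - l)) := rfl
  set δ := 1 - 2 * l with hδ
  have hδ2 : δ ^ 2 = 1 - 64 / xVal p := by
    rw [hδ, hxl]
    field_simp
    ring
  have hxF : xVal p ∈ F := hSx ▸ S.ex.2
  have hδF : δ ^ 2 ∈ F := hδ2 ▸ sub_mem (one_mem F) (div_mem (ofNat_mem F 64) hxF)
  obtain ⟨hδn, h2⟩ := S.delta_facts (by rw [hSx]; exact hδ2)
  obtain ⟨hkkF, d, hd, w, ⟨a, ha, b, hb, rfl⟩, hkw⟩ :=
    modK_mul_eq_of_base hp (by omega) ht hδF hδn (c := -(1 / 2))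
      (neg_mem (div_mem (one_mem F) (ofNat_mem F 2))) (by rw [hδ, hl]; ring) (h2 hδF)
  set u := 2 * (modK t * modKc t) with hu
  have hu0 : 0 < u := mul_pos two_pos (mul_pos (modK_pos hs) (modKc_pos hs))
  have hux : u ^ 2 * (S.ex : ℝ) = 64 := by
    rw [hSx, hxl, hu, mul_pow, mul_pow,
      show modKc t ^ 2 = 1 - l by rw [hl]; linarith [modK_sq_add hs], ← hl]
    field_simp
    norm_num
  have hu1 : u < 1 := by
    rw [hSx] at hux
    by_contra hc
    nlinarith [mul_le_mul_of_nonneg_right (one_le_pow₀ (n := 2) (not_lt.1 hc)) hx0.le]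
  have hδu : δ ^ 2 = 1 - u ^ 2 := by
    rw [hδ2, ← hux, hSx]
    field_simp
  have hclass : ∃ e : ℕ, (e = 1 ∨ e = 2) ∧ ∃ a' ∈ F, ∃ b' ∈ F,
      u = e * (a' + b' * δ) ^ 2 := by
    rcases hd with rfl | rfl
    · exact ⟨2, Or.inr rfl, a, ha, b, hb, by rw [hu, hkw]; push_cast; ring⟩
    · exact ⟨1, Or.inl rfl, 2 * a, mul_mem (ofNat_mem F 2) ha, 2 * b,
        mul_mem (ofNat_mem F 2) hb, by rw [hu, hkw]; push_cast; ring⟩
  obtain ⟨e, he, a', ha', b', hb', hue⟩ := hclass
  obtain ⟨q, hq, r, hr, e', he', hqr⟩ :=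
    S.exists_odd_point (mul_mem (ofNat_mem F 2) hkkF) hu0 hu1 hux hδu he ha' hb' hue
  obtain ⟨_, hodd, -⟩ := S.fix_facts
  rcases he' with rfl | rfl
  · obtain ⟨x, y, hxy⟩ := exists_rat_point_quartic hp (a := 4) hodd hq hr (by
      rw [hqr]; push_cast; ring)
    exact congruent_of_add_four hp (by simpa using hxy)
  · exfalso
    obtain ⟨x, y, hxy⟩ := exists_rat_point_quartic hp (a := 1) hodd hq
      (div_mem hr (ofNat_mem _ 2)) (by
        rw [div_pow, ← mul_div_assoc, hqr]; push_cast; ring)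
    exact FA.Summary.double_prime_five_mod_eight_not_congruent p hp h8
      (by simpa using congruent_of_add_one hp (by omega) (x := x) (y := y) (by simpa using hxy))

end FA.CongruentFive

end
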