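import Fermat.Agent.HeegnerCongruent.Quad
import Mathlib.FieldTheory.Fixed
import Mathlib.RingTheory.IntegralClosure.IntegrallyClosed
import Mathlib.RingTheory.Localization.FractionRing
import Mathlib.NumberTheory.NumberField.Basic
import Mathlib.FieldTheory.Galois.Basic
import Mathlib.RingTheory.Norm.Transitivity
import Mathlib.NumberTheory.Padics.PadicVal.Basic

/-!
# An involution of a real field of degree `2 (mod 4)`

With `σ x = 4096 / x`, `x = 64 / u²` and the norm of `x - 64` prime to `p`: `σ u = -1 / u`, so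
`1 / u - u` lies in the fixed field, of odd degree; there it is a square times `1` or `2` as soon
as `u` is a square of `F(√(1 - u²))` times `1` or `2`.
-/

set_option autoImplicit false
set_option linter.style.haveILetI false

noncomputable section

open Module IntermediateField
open FA.HeegnerCongruent

namespace FA.CongruentFive

/-- The fixed field of an involution has odd degree if the field has degree `2 (mod 4)`. -/
theorem odd_finrank_fixed {F : Type*} [Field F] [Algebra ℚ F] [FiniteDimensional ℚ F]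
    (h4 : finrank ℚ F % 4 = 2) (σ : F ≃ₐ[ℚ] F) (h2 : σ * σ = 1) (h1 : σ ≠ 1) :
    Odd (finrank ℚ (IntermediateField.fixedField (Subgroup.zpowers σ))) ∧
      finrank (IntermediateField.fixedField (Subgroup.zpowers σ)) F = 2 ∧
      ∀ z : F, z ∈ IntermediateField.fixedField (Subgroup.zpowers σ) ↔ σ z = z := by
  have h := IntermediateField.finrank_fixedField_eq_card (Subgroup.zpowers σ)
  rw [Nat.card_zpowers, orderOf_eq_prime (p := 2) (by rw [pow_two, h2]) h1] at h
  refine ⟨?_, h, fun z => ⟨fun hz => ?_, fun hz => ?_⟩⟩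
  · have hm := Module.finrank_mul_finrank ℚ (IntermediateField.fixedField (Subgroup.zpowers σ)) F
    rw [h] at hm
    exact Nat.odd_iff.2 (by omega)
  · exact (IntermediateField.mem_fixedField_iff _ _).1 hz σ (Subgroup.mem_zpowers σ)
  · rw [IntermediateField.mem_fixedField_iff]
    intro g hg
    exact (Subgroup.zpowers_le.mpr
      (MulAction.mem_stabilizer_iff.2 hz : σ ∈ MulAction.stabilizer (F ≃ₐ[ℚ] F) z)) hg

theorem coe_ofNat_subfield {F : IntermediateField ℚ ℝ} (n : ℕ) [n.AtLeastTwo] :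
    ((ofNat(n) : F) : ℝ) = ofNat(n) :=
  map_ofNat F.val n

/-- The data at `√-p`. -/
structure Setting (p : ℕ) (F : IntermediateField ℚ ℝ) where
  prime : p.Prime
  five : p % 8 = 5
  fd : FiniteDimensional ℚ F
  degree : finrank ℚ F % 4 = 2
  inv : F ≃ₐ[ℚ] F
  inv_sq : inv * inv = 1
  root : F
  root_sq : root ^ 2 = algebraMap ℚ F (p : ℚ)
  ex : F
  ex_gt : 64 < (ex : ℝ)
  inv_ex : inv ex = 4096 / ex
  integral : IsIntegral ℤ ex
  jdiff : F
  jdiff_mul : jdiff * ex = (ex + 8) ^ 2 * (ex - 64)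
  jdiff_ne : Algebra.norm ℚ jdiff ≠ 0
  jdiff_val : padicValRat p (Algebra.norm ℚ jdiff) = 0

namespace Setting

variable {p : ℕ} {F : IntermediateField ℚ ℝ} (S : Setting p F)

theorem ex_ne_zero : S.ex ≠ 0 := fun e => by
  have h := S.ex_gt
  rw [e] at h
  norm_num at h

theorem inv_ne_one : S.inv ≠ 1 := fun e => by
  have h := S.inv_ex
  rw [e, AlgEquiv.one_apply] at h
  have h' := congrArg Subtype.val h
  have := S.ex_gt
  push_cast [coe_ofNat_subfield] at h'
  rw [eq_div_iff (by linarith)] at h'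
  nlinarith

theorem inv_inv_apply (z : F) : S.inv (S.inv z) = z := AlgEquiv.congr_fun S.inv_sq z

/-- The fixed field, inside `ℝ`. -/
def Fix : IntermediateField ℚ ℝ :=
  (IntermediateField.fixedField (Subgroup.zpowers S.inv)).map F.val

theorem fix_facts :
    FiniteDimensional ℚ S.Fix ∧ Odd (finrank ℚ S.Fix) ∧ ∀ z : F, S.inv z = z → (z : ℝ) ∈ S.Fix := by
  haveI := S.fd
  obtain ⟨hodd, -, hfix⟩ := odd_finrank_fixed S.degree S.inv S.inv_sq S.inv_ne_one
  set e := (IntermediateField.fixedField (Subgroup.zpowers S.inv)).equivMap F.val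
  exact ⟨e.toLinearEquiv.finiteDimensional, e.toLinearEquiv.finrank_eq ▸ hodd,
    fun z hz => ⟨z, (hfix z).2 hz, rfl⟩⟩

theorem not_isSquare_prime {q : ℕ} (hq : q.Prime) : ¬ IsSquare ((q : ℕ) : ℚ) := by
  rw [Rat.isSquare_natCast_iff]
  exact (Nat.prime_iff.1 hq).not_isSquare

theorem inv_root : S.inv S.root = -S.root := by
  obtain ⟨_, hodd, hmem⟩ := S.fix_facts
  refine (sq_eq_sq_iff_eq_or_eq_neg.1 ?_).resolve_left fun h =>
    sq_ne_of_odd hodd (not_isSquare_prime S.prime) (hmem _ h) ?_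
  · rw [← map_pow, S.root_sq, AlgEquiv.commutes]
  · simpa using congrArg Subtype.val S.root_sq

theorem root_ne_zero : S.root ≠ 0 := fun e => by
  have h := S.root_sq
  rw [e, zero_pow two_ne_zero, eq_comm, map_eq_zero, Nat.cast_eq_zero] at h
  exact S.prime.ne_zero h

theorem inv_div_root {z : F} (hz : S.inv z = -z) : S.inv (z / S.root) = z / S.root := by
  rw [map_div₀, hz, S.inv_root, neg_div_neg_eq]

theorem inv_delta_neg : ((S.inv (1 - 64 / S.ex) : F) : ℝ) < 0 := by
  rw [map_sub, map_div₀, map_one, map_ofNat, S.inv_ex]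
  have := S.ex_gt
  push_cast [coe_ofNat_subfield]
  rw [sub_neg, lt_div_iff₀ (by positivity), one_mul, div_lt_iff₀ (by linarith)]
  linarith

include S in
theorem sq_ne_two (z : F) : (z : ℝ) ^ 2 ≠ 2 := fun hz => by
  obtain ⟨_, hodd, hmem⟩ := S.fix_facts
  have hz2 : z ^ 2 = algebraMap ℚ F 2 := Subtype.ext (by simpa [coe_ofNat_subfield] using hz)
  rcases sq_eq_sq_iff_eq_or_eq_neg.1
    (show S.inv z ^ 2 = z ^ 2 by rw [← map_pow, hz2, AlgEquiv.commutes]) with h | h
  · exact sq_ne_of_odd hodd (not_isSquare_prime Nat.prime_two) (hmem z h) (by rw [hz]; norm_num)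
  · refine sq_ne_of_odd hodd (q := ((2 : ℕ) : ℚ) / p) ?_ (hmem _ (S.inv_div_root h)) ?_
    · rintro ⟨r, hr⟩
      have hp0 : (p : ℚ) ≠ 0 := Nat.cast_ne_zero.2 S.prime.ne_zero
      have h2p : IsSquare ((2 * p : ℕ) : ℚ) := ⟨r * p, by
        push_cast at hr ⊢
        field_simp at hr
        linear_combination (p : ℚ) * hr⟩
      obtain ⟨m, hm⟩ := Rat.isSquare_natCast_iff.1 h2p
      obtain ⟨j, rfl⟩ : 2 ∣ m := (Nat.prime_two.dvd_mul.1 ⟨p, hm.symm⟩).elim id id
      have hd : 2 ∣ p := ⟨j * j, by linarith⟩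
      have := S.five
      omega
    · have h' : (S.root : ℝ) ^ 2 = (p : ℝ) := by simpa using congrArg Subtype.val S.root_sq
      push_cast
      rw [div_pow, hz, h']

/-- `√(1 - u²)` is new and `√2` is not in `F(√(1 - u²))`. -/
theorem delta_facts {δ : ℝ} (hδ : δ ^ 2 = 1 - 64 / (S.ex : ℝ)) :
    δ ∉ F ∧ ∀ hδ2 : δ ^ 2 ∈ F, Real.sqrt 2 ∉ quad F δ hδ2 := by
  have hn : δ ∉ F := fun hm => by
    have hneg := S.inv_delta_neg
    rw [show (1 - 64 / S.ex : F) = (⟨δ, hm⟩ : F) ^ 2 from
      Subtype.ext (by push_cast [coe_ofNat_subfield]; exact hδ.symm),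
      map_pow] at hneg
    push_cast at hneg
    exact absurd hneg (not_lt.2 (sq_nonneg _))
  refine ⟨hn, fun hδ2 ⟨a, ha, b, hb, e⟩ => ?_⟩
  have hr2 : Real.sqrt 2 ^ 2 = 2 := Real.sq_sqrt zero_le_two
  rcases eq_zero_or_of_sq_mem hn hδ2 ha hb (by rw [← e, hr2]; exact ofNat_mem F 2) with h | h
  · rw [h, zero_add] at e
    have e2 : (⟨b, hb⟩ : F) ^ 2 * (1 - 64 / S.ex) = algebraMap ℚ F 2 := Subtype.ext (by
      push_cast [coe_ofNat_subfield]
      rw [← hδ, ← mul_pow, ← e, hr2]
      simp [coe_ofNat_subfield])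
    have e3 := congrArg (fun z => ((S.inv z : F) : ℝ)) e2
    simp only [map_mul, map_pow, AlgEquiv.commutes] at e3
    push_cast at e3
    have h2 : ((algebraMap ℚ F 2 : F) : ℝ) = 2 := by
      rw [map_ofNat]; exact coe_ofNat_subfield 2
    nlinarith [mul_nonneg (sq_nonneg ((S.inv ⟨b, hb⟩ : F) : ℝ)) (neg_nonneg.2 S.inv_delta_neg.le)]
  · exact S.sq_ne_two ⟨a, ha⟩ (by rw [h, zero_mul, add_zero] at e; simp [← e, hr2])

/-- The norm of an integral element is no proper fraction at `p`. -/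
theorem padicValRat_norm_nonneg {z : F} (hz : IsIntegral ℤ z) :
    0 ≤ padicValRat p (Algebra.norm ℚ z) := by
  obtain ⟨n, hn⟩ := IsIntegrallyClosed.algebraMap_eq_of_integral
    (Algebra.isIntegral_norm ℚ hz)
  rw [← hn, eq_intCast, padicValRat.of_int]
  exact Int.natCast_nonneg _

/-- **The norm of `x + 4096 / x - 128` from the fixed field is prime to `p`.** -/
theorem norm_val_eq_zero
    {W0 : IntermediateField.fixedField (Subgroup.zpowers S.inv)}
    (hW : (W0 : F) = S.ex + S.inv S.ex - 128) (hW0 : W0 ≠ 0) :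
    padicValRat p (Algebra.norm ℚ W0) = 0 := by
  haveI := S.fd
  haveI := Fact.mk S.prime
  obtain ⟨-, h2, -⟩ := odd_finrank_fixed S.degree S.inv S.inv_sq S.inv_ne_one
  have hex := S.ex_ne_zero
  have hNW : Algebra.norm ℚ (W0 : F) = Algebra.norm ℚ W0 ^ 2 := by
    rw [show (W0 : F) = algebraMap (IntermediateField.fixedField (Subgroup.zpowers S.inv)) F W0
        from rfl,
      ← Algebra.norm_norm (S := IntermediateField.fixedField (Subgroup.zpowers S.inv)),
      Algebra.norm_algebraMap, h2, map_pow]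
  have hNN : Algebra.norm ℚ S.ex * Algebra.norm ℚ S.ex = (4096 : ℚ) ^ finrank ℚ F := by
    nth_rewrite 2 [← Algebra.norm_eq_of_algEquiv S.inv S.ex]
    rw [← map_mul, S.inv_ex, mul_div_cancel₀ _ hex,
      show (4096 : F) = algebraMap ℚ F 4096 from (map_ofNat _ 4096).symm, Algebra.norm_algebraMap]
  have hNx0 : Algebra.norm ℚ S.ex ≠ 0 := Algebra.norm_ne_zero_iff.2 hex
  have hNW0 : Algebra.norm ℚ W0 ≠ 0 := Algebra.norm_ne_zero_iff.2 hW0
  have hvx : padicValRat p (Algebra.norm ℚ S.ex) = 0 := by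
    have h := congrArg (padicValRat p) hNN
    have h4096 : padicValRat p (4096 : ℚ) = 0 := by
      rw [show (4096 : ℚ) = ((2 : ℕ) : ℚ) ^ 12 by norm_num, padicValRat.pow, padicValRat.of_nat,
        padicValNat_primes (by have := S.five; omega)]
      simp
    rw [padicValRat.mul hNx0 hNx0, padicValRat.pow, h4096] at h
    omega
  have hprod : (W0 : F) * S.ex = (S.ex - 64) ^ 2 := by
    rw [hW, S.inv_ex]
    field_simp
    ring
  have hv64 : padicValRat p (Algebra.norm ℚ (S.ex - 64)) = 0 := by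
    have h8 : S.ex + 8 ≠ 0 := fun e => by
      have h' := congrArg Subtype.val e
      push_cast [coe_ofNat_subfield] at h'
      linarith [S.ex_gt]
    have h64 : S.ex - 64 ≠ 0 := fun e => by
      have h' := congrArg Subtype.val e
      push_cast [coe_ofNat_subfield] at h'
      linarith [S.ex_gt]
    have hv := congrArg (padicValRat p) (congrArg (Algebra.norm ℚ) S.jdiff_mul)
    rw [map_mul, map_mul, map_pow, padicValRat.mul S.jdiff_ne hNx0,
      padicValRat.mul (pow_ne_zero 2 (Algebra.norm_ne_zero_iff.2 h8))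
        (Algebra.norm_ne_zero_iff.2 h64), padicValRat.pow, S.jdiff_val, hvx] at hv
    have hi8 : IsIntegral ℤ (S.ex + 8) :=
      S.integral.add ((map_ofNat (algebraMap ℤ F) 8) ▸ isIntegral_algebraMap)
    have hi64 : IsIntegral ℤ (S.ex - 64) :=
      S.integral.sub ((map_ofNat (algebraMap ℤ F) 64) ▸ isIntegral_algebraMap)
    have := padicValRat_norm_nonneg (p := p) hi8
    have := padicValRat_norm_nonneg (p := p) hi64
    omega
  have h := congrArg (padicValRat p) (congrArg (Algebra.norm ℚ) hprod)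
  rw [map_mul, map_pow, hNW, padicValRat.mul (pow_ne_zero 2 hNW0) hNx0, padicValRat.pow,
    padicValRat.pow, hv64, hvx] at h
  omega

/-- **A point of odd degree on `p b² = e² q⁴ + 4`, `e` one of `1`, `2`.** -/
theorem exists_odd_point {u δ : ℝ} (hu : u ∈ F) (hu0 : 0 < u) (hu1 : u < 1)
    (hux : u ^ 2 * (S.ex : ℝ) = 64) (hδ : δ ^ 2 = 1 - u ^ 2) {e : ℕ} (he : e = 1 ∨ e = 2)
    {a b : ℝ} (ha : a ∈ F) (hb : b ∈ F) (hclass : u = e * (a + b * δ) ^ 2) :
    ∃ q ∈ S.Fix, ∃ r ∈ S.Fix, ∃ d : ℕ, (d = 1 ∨ d = 2) ∧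
      (p : ℝ) * r ^ 2 = (d : ℝ) ^ 2 * q ^ 4 + 4 := by
  haveI := S.fd
  haveI := Fact.mk S.prime
  obtain ⟨hodd, -, hfix⟩ := odd_finrank_fixed S.degree S.inv S.inv_sq S.inv_ne_one
  obtain ⟨-, -, hmem⟩ := S.fix_facts
  set F0 := IntermediateField.fixedField (Subgroup.zpowers S.inv) with hF0
  set σ := S.inv with hσ
  set X := S.ex with hX
  have hX0 : X ≠ 0 := S.ex_ne_zero
  have hT0 := S.root_ne_zero
  set U : F := ⟨u, hu⟩ with hU
  have hU0 : U ≠ 0 := fun h => hu0.ne' (congrArg Subtype.val h)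
  have hUX : U ^ 2 * X = 64 := Subtype.ext (by push_cast [hU]; exact hux)
  have hXU : X = 64 / U ^ 2 := by rw [← hUX]; field_simp
  have hσU2 : σ U ^ 2 = U⁻¹ ^ 2 := by
    rw [← map_pow, show U ^ 2 = 64 / X by rw [← hUX]; field_simp, map_div₀, map_ofNat, hσ,
      S.inv_ex, ← hX, hXU]
    field_simp
    ring
  set W : F := X + σ X - 128 with hW
  have hWu : W = 64 * (U - U⁻¹) ^ 2 := by
    rw [hW, hσ, S.inv_ex, ← hX, hXU]
    field_simp
    ring
  have hσW : σ W = W := by
    rw [hW, map_sub, map_add, hσ, S.inv_inv_apply, map_ofNat]; ring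
  have hne : U - U⁻¹ ≠ 0 := fun h => by
    have h' := congrArg Subtype.val (sub_eq_zero.1 h)
    push_cast [hU] at h'
    nlinarith [mul_inv_cancel₀ hu0.ne', one_lt_inv_iff₀.2 ⟨hu0, hu1⟩]
  set W0 : F0 := ⟨W, (hfix W).2 hσW⟩ with hW0'
  have hW0 : W0 ≠ 0 := fun h => by
    have : W = 0 := congrArg Subtype.val h
    rw [hWu] at this
    exact mul_ne_zero (by norm_num) (pow_ne_zero 2 hne) this
  have hpW := S.norm_val_eq_zero (W0 := W0) rfl hW0
  have hoddd : finrank ℚ F0 % 2 = 1 := Nat.odd_iff.1 hodd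
  have hv2 : padicValRat p (2 : ℚ) = 0 := by
    rw [show (2 : ℚ) = ((2 : ℕ) : ℚ) by norm_num, padicValRat.of_nat,
      padicValNat_primes (by have := S.five; omega)]
    rfl
  have hvp : padicValRat p (p : ℚ) = 1 := padicValRat.self S.prime.one_lt
  rcases sq_eq_sq_iff_eq_or_eq_neg.1 hσU2 with hε | hε
  · -- `σ u = 1 / u`: `p` would divide the norm
    exfalso
    set c : F := (U - U⁻¹) / S.root with hc
    have hc0 : σ c = c := S.inv_div_root (by rw [map_sub, map_inv₀, ← hσ, hε, inv_inv]; ring)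
    set C0 : F0 := ⟨c, (hfix c).2 hc0⟩ with hC0
    have hC : C0 ≠ 0 := fun h => div_ne_zero hne hT0 (congrArg Subtype.val h)
    have hNC : Algebra.norm ℚ C0 ≠ 0 := Algebra.norm_ne_zero_iff.2 hC
    have h : W0 = algebraMap ℚ F0 (2 ^ 6 * p) * C0 ^ 2 := by
      refine Subtype.ext ?_
      show W = algebraMap ℚ F (2 ^ 6 * p) * c ^ 2
      rw [map_mul, ← S.root_sq, hWu, hc]
      field_simp
      norm_num
      ring
    rw [h, map_mul, map_pow, Algebra.norm_algebraMap, padicValRat.mul (pow_ne_zero _ (mul_ne_zero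
      (by norm_num) (Nat.cast_ne_zero.2 S.prime.ne_zero))) (pow_ne_zero _ hNC), padicValRat.pow,
      padicValRat.pow, padicValRat.mul (by norm_num) (Nat.cast_ne_zero.2 S.prime.ne_zero),
      padicValRat.pow, hv2, hvp] at hpW
    simp only [mul_zero, zero_add, mul_one] at hpW
    have : finrank ℚ (IntermediateField.fixedField (Subgroup.zpowers S.inv)) % 2 = 1 :=
      hoddd
    omega
  -- `σ u = -1 / u`
  set A : F := U⁻¹ - U with hA
  have hσA : σ A = A := by rw [hA, map_sub, map_inv₀, hε]; field_simp; ring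
  set B : F := (U + U⁻¹) / S.root with hB
  have hσB : σ B = B := S.inv_div_root (by rw [map_add, map_inv₀, ← hσ, hε]; field_simp; ring)
  have hAB : A ^ 2 + 4 = algebraMap ℚ F (p : ℚ) * B ^ 2 := by
    rw [hA, hB, ← S.root_sq]
    field_simp
    ring
  have hd2F : δ ^ 2 ∈ F := hδ ▸ sub_mem (one_mem F) (pow_mem hu 2)
  have hδn : δ ∉ F := (S.delta_facts (by
    rw [hδ, ← hux, ← hX]
    have : (X : ℝ) ≠ 0 := by have := S.ex_gt; rw [← hX] at this; linarith
    field_simp)).1
  have he0 : (e : ℝ) ≠ 0 := by rcases he with rfl | rfl <;> norm_num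
  obtain ⟨v, hv, hAv⟩ : ∃ v : F, v ≠ 0 ∧ A = algebraMap ℚ F (e : ℚ) * v ^ 2 := by
    rcases eq_zero_or_of_sq_mem hδn hd2F ha hb (by
      rw [show (a + b * δ) ^ 2 = u / e by rw [hclass]; field_simp]
      exact div_mem hu (_root_.natCast_mem F e)) with h0 | h0
    · rw [h0, zero_add, mul_pow, hδ] at hclass
      have hb0 : b ≠ 0 := fun hb0 => by rw [hb0] at hclass; simp at hclass; linarith
      refine ⟨⟨1 / (e * b), div_mem (one_mem F) (mul_mem (_root_.natCast_mem F e) hb)⟩, ?_, ?_⟩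
      · exact fun h => one_div_ne_zero (mul_ne_zero he0 hb0) (congrArg Subtype.val h)
      · refine Subtype.ext ?_
        push_cast [hA, hU]
        field_simp
        linear_combination -hclass
    · exfalso
      rw [h0, zero_mul, add_zero] at hclass
      have hUe : U = algebraMap ℚ F (e : ℚ) * (⟨a, ha⟩ : F) ^ 2 :=
        Subtype.ext (by push_cast [hU]; simpa using hclass)
      have h' := congrArg Subtype.val hε
      rw [hUe, map_mul, map_pow, AlgEquiv.commutes, ← hUe] at h'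
      push_cast [hU] at h'
      have : 0 ≤ (e : ℝ) * ((σ ⟨a, ha⟩ : F) : ℝ) ^ 2 :=
        mul_nonneg (Nat.cast_nonneg _) (sq_nonneg _)
      have := inv_pos.2 hu0
      linarith
  have hσv2 : σ v ^ 2 = v ^ 2 := by
    have h := hσA
    rw [hAv, map_mul, map_pow, AlgEquiv.commutes] at h
    refine mul_left_cancel₀ ?_ h
    exact (map_ne_zero (algebraMap ℚ F)).2 (by rcases he with rfl | rfl <;> norm_num)
  rcases sq_eq_sq_iff_eq_or_eq_neg.1 hσv2 with hσv | hσv
  · refine ⟨v, hmem v hσv, B, hmem B hσB, e, he, ?_⟩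
    have h := congrArg Subtype.val hAB
    rw [hAv] at h
    push_cast [coe_ofNat_subfield] at h
    linear_combination -h
  -- `v = q √p`: again `p` would divide the norm
  exfalso
  set c : F := v / S.root with hc
  have hc0 : σ c = c := S.inv_div_root hσv
  set C0 : F0 := ⟨c, (hfix c).2 hc0⟩ with hC0
  have hC : C0 ≠ 0 := fun h => div_ne_zero hv hT0 (congrArg Subtype.val h)
  have hNC : Algebra.norm ℚ C0 ≠ 0 := Algebra.norm_ne_zero_iff.2 hC
  have hev : padicValRat p (e : ℚ) = 0 := by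
    rcases he with rfl | rfl
    · simp
    · exact_mod_cast hv2
  have heq : (e : ℚ) ≠ 0 := by rcases he with rfl | rfl <;> norm_num
  have h : W0 = algebraMap ℚ F0 (2 ^ 6 * ((e : ℚ) * p) ^ 2) * C0 ^ 4 := by
    refine Subtype.ext ?_
    show W = algebraMap ℚ F (2 ^ 6 * ((e : ℚ) * p) ^ 2) * c ^ 4
    rw [map_mul, map_pow, map_pow, map_mul, ← S.root_sq, hWu,
      show (U - U⁻¹) ^ 2 = A ^ 2 by rw [hA]; ring, hAv, hc]
    field_simp
    norm_num
    ring
  rw [h, map_mul, map_pow, Algebra.norm_algebraMap, padicValRat.mul (pow_ne_zero _ (mul_ne_zero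
    (by norm_num) (pow_ne_zero _ (mul_ne_zero heq (Nat.cast_ne_zero.2 S.prime.ne_zero)))))
    (pow_ne_zero _ hNC), padicValRat.pow, padicValRat.pow, padicValRat.mul (by norm_num)
    (pow_ne_zero _ (mul_ne_zero heq (Nat.cast_ne_zero.2 S.prime.ne_zero))), padicValRat.pow,
    padicValRat.pow, padicValRat.mul heq (Nat.cast_ne_zero.2 S.prime.ne_zero), hv2, hev, hvp] at hpW
  simp only [mul_zero, zero_add, mul_one] at hpW
  have : finrank ℚ (IntermediateField.fixedField (Subgroup.zpowers S.inv)) % 2 = 1 := hoddd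
  omega

end Setting

end FA.CongruentFive

end
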